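/-
S48, block BB, sub-block M (multiplier map), owner helper144.
The Kummer module `W F n` of an ARBITRARY function field `F` over `ℚ̄` (generic copy of the first
half of `GAL/E/Defs.lean`):

* `IsKum F n u` : the divisor of `u` is divisible by `n`;
* `kum F n`     : the group of Kummer units;
* `W F n`       : `kum F n` modulo `n`-th powers, written additively;
* `mapW`        : functoriality.
-/
import Fermat.Agent.S24.FFOne
import Fermat.Agent.S24.Defs

set_option autoImplicit false

noncomputable section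

namespace Fermat.Agent.S48.BB.M

open AlgebraicCurve Fermat.Agent.S24

variable (F : Type*) [Field F] [Algebra Kbar F]

/-- The divisor of `u` is divisible by `n`. -/
def IsKum (n : ℕ) (u : F) : Prop := ∀ v : Place Kbar F, (n : ℤ) ∣ v.ord u

variable {F}

theorem IsKum.mul {n : ℕ} {a b : F} (ha : IsKum F n a) (hb : IsKum F n b) :
    IsKum F n (a * b) := by
  intro v
  rcases eq_or_ne a 0 with rfl | ha0
  · simp
  rcases eq_or_ne b 0 with rfl | hb0
  · simp
  rw [v.ord_mul ha0 hb0]
  exact dvd_add (ha v) (hb v)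

theorem IsKum.inv {n : ℕ} {a : F} (ha : IsKum F n a) : IsKum F n a⁻¹ := by
  intro v
  rw [v.ord_inv]
  exact (dvd_neg).2 (ha v)

theorem IsKum.div {n : ℕ} {a b : F} (ha : IsKum F n a) (hb : IsKum F n b) :
    IsKum F n (a / b) := by
  rw [div_eq_mul_inv]
  exact ha.mul hb.inv

variable (F) in
theorem isKum_one (n : ℕ) : IsKum F n 1 := fun v => by simp

theorem IsKum.pow {n : ℕ} {a : F} (ha : IsKum F n a) (m : ℕ) : IsKum F n (a ^ m) := by
  induction m with
  | zero => simpa using isKum_one F n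
  | succ m ih => rw [pow_succ]; exact ih.mul ha

theorem isKum_pow_self (n : ℕ) (a : F) : IsKum F n (a ^ n) := by
  intro v
  rw [FF.ord_pow]
  exact dvd_mul_right _ _

variable (F) in
theorem isKum_algebraMap (n : ℕ) (c : Kbar) : IsKum F n (algebraMap Kbar F c) := by
  intro v
  rw [FF.ord_algebraMap]
  exact dvd_zero _

theorem IsKum.prod {n : ℕ} {ι : Type*} (s : Finset ι) (f : ι → F)
    (h : ∀ i ∈ s, IsKum F n (f i)) : IsKum F n (∏ i ∈ s, f i) := by
  classical
  induction s using Finset.induction_on with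
  | empty => simpa using isKum_one F n
  | insert a s ha ih =>
    rw [Finset.prod_insert ha]
    exact (h a (Finset.mem_insert_self a s)).mul (ih fun i hi => h i (Finset.mem_insert_of_mem hi))

variable (F)

/-- The group of Kummer units. -/
def kum (n : ℕ) : Subgroup Fˣ where
  carrier := {u | IsKum F n (u : F)}
  one_mem' := isKum_one F n
  mul_mem' := by
    intro a b ha hb
    show IsKum F n ((a * b : Fˣ) : F)
    rw [Units.val_mul]
    exact IsKum.mul ha hb
  inv_mem' := by
    intro a ha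
    show IsKum F n ((a⁻¹ : Fˣ) : F)
    rw [Units.val_inv_eq_inv_val]
    exact IsKum.inv ha

/-- The `n`-th powers. -/
def pows (n : ℕ) : Subgroup Fˣ := (powMonoidHom n : Fˣ →* Fˣ).range

variable {F}

theorem mem_kum {n : ℕ} {u : Fˣ} : u ∈ kum F n ↔ IsKum F n (u : F) := Iff.rfl

theorem mem_pows {n : ℕ} {u : Fˣ} : u ∈ pows F n ↔ ∃ w : Fˣ, w ^ n = u := Iff.rfl

variable (F) in
theorem pows_le_kum (n : ℕ) : pows F n ≤ kum F n := by
  rintro _ ⟨w, rfl⟩
  show IsKum F n (((w ^ n : Fˣ)) : F)
  rw [Units.val_pow_eq_pow_val]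
  exact isKum_pow_self n _

/-- a unit which is an `n`-th power in the field is an `n`-th power of a unit -/
theorem mem_pows_of_eq_pow {n : ℕ} {u : Fˣ} {w : F} (h : (u : F) = w ^ n) :
    u ∈ pows F n := by
  rcases Nat.eq_zero_or_pos n with rfl | hn
  · exact ⟨1, Units.ext (by simpa using h.symm)⟩
  have hw : w ≠ 0 := by
    rintro rfl
    rw [zero_pow hn.ne'] at h
    exact u.ne_zero h
  exact ⟨Units.mk0 w hw, Units.ext (by rw [powMonoidHom_apply, Units.val_pow_eq_pow_val,
    Units.val_mk0, h])⟩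

variable (F) in
/-- The Kummer module (multiplicative version). -/
abbrev Wm (n : ℕ) : Type _ := kum F n ⧸ (pows F n).subgroupOf (kum F n)

variable (F) in
/-- The Kummer module, written additively. -/
abbrev W (n : ℕ) : Type _ := Additive (Wm F n)

/-- The class of a Kummer unit. -/
def cls {n : ℕ} (u : kum F n) : W F n := Additive.ofMul (QuotientGroup.mk u)

theorem cls_surjective {n : ℕ} : Function.Surjective (cls (F := F) (n := n)) := by
  intro x
  obtain ⟨u, hu⟩ := QuotientGroup.mk_surjective (Additive.toMul x)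
  exact ⟨u, by rw [cls, hu]; rfl⟩

theorem cls_mul {n : ℕ} (u v : kum F n) : cls (u * v) = cls u + cls v := rfl

theorem cls_one {n : ℕ} : cls (1 : kum F n) = 0 := rfl

theorem cls_inv {n : ℕ} (u : kum F n) : cls u⁻¹ = - cls u := rfl

theorem cls_pow {n : ℕ} (u : kum F n) (m : ℕ) : cls (u ^ m) = m • cls u := rfl

theorem cls_eq_zero_iff {n : ℕ} (u : kum F n) : cls u = 0 ↔ (u : Fˣ) ∈ pows F n := by
  show (QuotientGroup.mk u : Wm F n) = 1 ↔ _
  rw [QuotientGroup.eq_one_iff, Subgroup.mem_subgroupOf]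

theorem nsmul_W {n : ℕ} (x : W F n) : n • x = 0 := by
  obtain ⟨u, rfl⟩ := cls_surjective x
  rw [← cls_pow, cls_eq_zero_iff]
  exact ⟨u, rfl⟩

/-- A homomorphism of unit groups preserving Kummer units induces a homomorphism of Kummer
modules. -/
def mapW {F' : Type*} [Field F'] [Algebra Kbar F'] {n : ℕ} (f : Fˣ →* F'ˣ)
    (hf : ∀ u ∈ kum F n, f u ∈ kum F' n) : W F n →+ W F' n :=
  MonoidHom.toAdditive <|
    QuotientGroup.map _ _ ((f.comp (kum F n).subtype).codRestrict (kum F' n) fun u => hf u u.2) (by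
      rintro ⟨u, hu⟩ ⟨w, hw⟩
      refine ⟨f w, ?_⟩
      show f w ^ n = f u
      rw [← map_pow]
      exact congrArg f hw)

theorem mapW_cls {F' : Type*} [Field F'] [Algebra Kbar F'] {n : ℕ} (f : Fˣ →* F'ˣ)
    (hf : ∀ u ∈ kum F n, f u ∈ kum F' n) (u : kum F n) :
    mapW f hf (cls u) = cls ⟨f u, hf u u.2⟩ := rfl

end Fermat.Agent.S48.BB.M

end
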