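/-
S48, block BB, sub-block M (multiplier map), owner helper144.
Generic version of `GAL/Mult/{RootAdmAux, RootAdm, KumOrd, Root}.lean`:
for ANY function field `F` over `ℚ̄` with an embedding `Ψ : F → LL N`, the Kummer elements of `F`
(divisor divisible by `n`) have `n`-th roots in `LL N`.
-/
import Fermat.Agent.GAL.Mult.Root
import Fermat.Agent.GAL.Mult.API
import Fermat.Agent.S48.BB.M.Kum

set_option autoImplicit false

namespace Fermat.Agent.S48.BB.M

open UpperHalfPlane Filter Topology ModularCurve AlgebraicCurve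
open Fermat.Agent.S24 Fermat.Agent.S24.B Fermat.Agent.GAL.Mult
open scoped MatrixGroups Real Manifold

/-- A holomorphic `n`-th root of an admissible function, all of whose expansions have order
divisible by `n`, is admissible. -/
theorem isAdm_of_pow_eq_AB {N : ℕ} [NeZero N] {n : ℕ} (hn : 0 < n) {h₀ : ℍ → ℂ} (hh : MDiff h₀)
    (c : AB N) (hc : c ≠ 0) (hpow : ∀ τ, h₀ τ ^ n = c.1 τ)
    (hord : ∀ γ : SL(2, ℤ), (n : ℤ) ∣ (texpB N (γ • c)).order) : IsAdm N h₀ where
  mdiff := hh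
  texp γ := by
    refine exists_hasTExp_of_pow_eq hn (c := (γ⁻¹ • c).1) (mdiff_comp_smul hh (sl γ))
      (fun τ => ?_) (hasTExp_texpB (γ⁻¹ • c)) ?_ (hord γ⁻¹)
    · rw [smul_AB_apply, inv_inv]
      exact hpow _
    · intro h0
      have h1 : γ⁻¹ • c = 0 := texpB_injective (by rw [h0, map_zero])
      exact hc ((smul_eq_zero_iff_eq γ⁻¹).mp h1)
  fin := by
    refine ((finite_orbit_AB c).biUnion
      (fun c' _ => finite_setOf_mdiff_pow_eq hn c'.1)).subset ?_
    rintro _ ⟨γ, rfl⟩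
    refine Set.mem_biUnion (x := γ⁻¹ • c) ⟨γ⁻¹, rfl⟩ ⟨mdiff_comp_smul hh (sl γ), fun τ => ?_⟩
    rw [smul_AB_apply, inv_inv]
    exact hpow _

section

variable {N : ℕ} [NeZero N] {F : Type*} [Field F] [Algebra Kbar F] (Ψ : F →ₐ[Kbar] LL N)

/-- The realisation of `F` as a field of meromorphic functions on the upper half plane. -/
noncomputable def real : F →ₐ[Kbar] MM := (embL N).comp Ψ

theorem real_apply (u : F) : real Ψ u = embL N (Ψ u) := rfl

theorem real_ne_zero {u : F} (hu : u ≠ 0) : real Ψ u ≠ 0 :=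
  (map_ne_zero_iff _ (real Ψ).toRingHom.injective).2 hu

theorem dvd_order_wexpM {n : ℕ} {u : F} (hu : u ≠ 0) (hdiv : IsKum F n u) (τ₀ : ℍ) :
    (n : ℤ) ∣ (wexpM τ₀ (real Ψ u)).order := by
  refine KumOrd.dvd_order (K := Kbar) ((wexpM τ₀).comp (real Ψ).toRingHom) (fun a _ => ?_)
    n u hu hdiv
  show (wexpM τ₀ (real Ψ (algebraMap Kbar F a))).order = 0
  rw [AlgHom.commutes, wexpM_algebraMap_Kbar, HahnSeries.order_C]

theorem dvd_order_texpLL_smul {n : ℕ} {u : F} (hu : u ≠ 0) (hdiv : IsKum F n u)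
    (γ : SL(2, ℤ)) : (n : ℤ) ∣ (texpLL N (γ • Ψ u)).order := by
  refine KumOrd.dvd_order (K := Kbar) ((texpLL N).toRingHom.comp
    ((MulSemiringAction.toRingHom SL(2, ℤ) (LL N) γ).comp Ψ.toRingHom)) (fun a ha => ?_)
    n u hu hdiv
  show (texpLL N (γ • Ψ (algebraMap Kbar F a))).order = 0
  rw [AlgHom.commutes, smul_algebraMap_Kbar_LL, AlgHom.commutes,
    algebraMap_laurentSeries_eq_single, HahnSeries.order_single ha]

/-- **Kummer elements have `n`-th roots in `LL N`.** -/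
theorem exists_root_LL {n : ℕ} (hn : 0 < n) {u : F} (hu : u ≠ 0) (hdiv : IsKum F n u) :
    ∃ h : LL N, h ^ n = Ψ u := by
  obtain ⟨a, b, hb, hab⟩ := IsFractionRing.div_surjective (A := AB N) (Ψ u)
  have hb0 : b ≠ 0 := nonZeroDivisors.ne_zero hb
  have hbL : algebraMap (AB N) (LL N) b ≠ 0 := by
    simpa using hb0
  have hPu : Ψ u ≠ 0 := by
    simpa using hu
  set c : AB N := a * b ^ (n - 1) with hc
  have hcL : algebraMap (AB N) (LL N) c = Ψ u * algebraMap (AB N) (LL N) b ^ n := by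
    rw [hc, map_mul, map_pow, ← hab, div_mul_eq_mul_div, eq_div_iff hbL, mul_assoc, ← pow_succ,
      Nat.sub_add_cancel hn]
  have hcL0 : algebraMap (AB N) (LL N) c ≠ 0 := by
    rw [hcL]
    exact mul_ne_zero hPu (pow_ne_zero _ hbL)
  have hc0 : c ≠ 0 := by
    intro h
    rw [h, map_zero] at hcL0
    exact hcL0 rfl
  -- orders at the points of the upper half plane
  have hord : ∀ τ : ℍ, ∃ m : ℕ,
      analyticOrderAt (fun z : ℂ => c.1 (ofComplex z)) (τ : ℂ) = ((n * m : ℕ) : ℕ∞) := by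
    intro τ
    have h1 : (wexpH τ (abToHol N c)).order = ordAt τ c.1 := order_wexpH τ (abToHol N c)
    have e1 : wexpM τ (embL N (Ψ u)) ≠ 0 := (map_ne_zero _).mpr ((map_ne_zero _).mpr hPu)
    have e2 : wexpM τ (embL N (algebraMap (AB N) (LL N) b)) ≠ 0 :=
      (map_ne_zero _).mpr ((map_ne_zero _).mpr hbL)
    have h2 : HahnSeries.ofPowerSeries ℤ ℂ (wexpH τ (abToHol N c)) =
        wexpM τ (embL N (Ψ u)) * wexpM τ (embL N (algebraMap (AB N) (LL N) b)) ^ n := by
      rw [← wexpM_algebraMap, ← embL_algebraMap, hcL, map_mul, map_pow, map_mul, map_pow]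
    have h3 : wexpH τ (abToHol N c) ≠ 0 := by
      intro h
      rw [h, map_zero] at h2
      exact mul_ne_zero e1 (pow_ne_zero _ e2) h2.symm
    obtain ⟨m, hm⟩ := exists_order_eq_of_dvd (n := n) (wexpH τ (abToHol N c)) h3 (by
      rw [h2, HahnSeries.order_mul e1 (pow_ne_zero _ e2), HahnSeries.order_pow]
      exact dvd_add (dvd_order_wexpM Ψ hu hdiv τ) ⟨_, by rw [nsmul_eq_mul]⟩)
    exact ⟨m, by rw [← hm, h1]; rfl⟩
  obtain ⟨h₀, hh₀, hpow⟩ := Fermat.Agent.Lib.HolRoot.exists_root hn.ne' c.1 c.2.mdiff hord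
  -- orders at the cusps
  have hordT : ∀ γ : SL(2, ℤ), (n : ℤ) ∣ (texpB N (γ • c)).order := by
    intro γ
    have h2 : texpB N (γ • c) =
        texpLL N (γ • Ψ u) * texpLL N (γ • algebraMap (AB N) (LL N) b) ^ n := by
      rw [← texpLL_algebraMap, ← smul_algebraMap_AB, hcL, smul_mul', smul_pow', map_mul, map_pow]
    have e1 : texpLL N (γ • Ψ u) ≠ 0 := (map_ne_zero _).mpr ((smul_ne_zero_iff_ne γ).mpr hPu)
    have e2 : texpLL N (γ • algebraMap (AB N) (LL N) b) ≠ 0 :=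
      (map_ne_zero _).mpr ((smul_ne_zero_iff_ne γ).mpr hbL)
    rw [h2, HahnSeries.order_mul e1 (pow_ne_zero _ e2), HahnSeries.order_pow]
    exact dvd_add (dvd_order_texpLL_smul Ψ hu hdiv γ) ⟨_, by rw [nsmul_eq_mul]⟩
  have hAdm : IsAdm N h₀ := isAdm_of_pow_eq_AB hn hh₀ c hc0 hpow hordT
  refine ⟨algebraMap (AB N) (LL N) ⟨h₀, hAdm⟩ / algebraMap (AB N) (LL N) b, ?_⟩
  have e : (⟨h₀, hAdm⟩ : AB N) ^ n = c := by
    apply Subtype.ext
    funext τ
    exact hpow τ
  rw [div_pow, ← map_pow, e, hcL, mul_div_assoc, div_self (pow_ne_zero _ hbL), mul_one]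

end

end Fermat.Agent.S48.BB.M
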