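/-
S48, block BB, sub-block M (multiplier map), owner helper144.
Generic version of `GAL/Mult/{Defs, IsMult, IsMultLL, Inj}.lean`.

DATA: a field `F` over `ℚ̄`, an embedding `Ψ : F →ₐ[ℚ̄] LL N` and a subgroup `H ≤ SL(2,ℤ)`.
HYPOTHESES (explicit, where needed):
* `hinv : ∀ γ ∈ H, ∀ f, γ • Ψ f = Ψ f`                      (`Ψ(F)` consists of `H`-invariants);
* `hfix : ∀ y : LL N, (∀ γ ∈ H, γ • y = y) → ∃ f, Ψ f = y`   (`Ψ(F)` is the fixed field of `H`).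
-/
import Fermat.Agent.GAL.Mult.IsMult
import Fermat.Agent.S48.BB.M.Root

set_option autoImplicit false

namespace Fermat.Agent.S48.BB.M

open UpperHalfPlane Filter Topology ModularCurve AlgebraicCurve
open Fermat.Agent.S24 Fermat.Agent.S24.B Fermat.Agent.GAL.Mult
open scoped MatrixGroups Real Manifold

variable {N : ℕ} [NeZero N] {F : Type*} [Field F] [Algebra Kbar F]

/-- `ψ` is the multiplier system of an `n`-th root `h` (a meromorphic function on `ℍ`) of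
`u ∈ F`:  `h (γ τ) = ζ_n ^ ψ(γ) h(τ)` for `γ ∈ H`. -/
def IsMult (Ψ : F →ₐ[Kbar] LL N) (H : Subgroup SL(2, ℤ)) (n : ℕ) [NeZero n] (u : F)
    (ψ : Additive H →+ ZMod n) : Prop :=
  ∃ h : MM, h ≠ 0 ∧ h ^ n = real Ψ u ∧ ∀ γ : H,
    (sl (γ : SL(2, ℤ)))⁻¹ • h =
      algebraMap Kbar MM ((zetaK n : Kbar) ^ (ψ (Additive.ofMul γ)).val) * h

/-- `ψ` kills the elements of `H` which are conjugate in `SL(2,ℤ)` to a power of `σ`. -/
def Kills {H : Subgroup SL(2, ℤ)} {A : Type*} [AddCommGroup A] (ψ : Additive H →+ A)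
    (σ : SL(2, ℤ)) : Prop :=
  ∀ (k : ℕ) (g : SL(2, ℤ)) (hg : g⁻¹ * σ ^ k * g ∈ H), ψ (Additive.ofMul ⟨_, hg⟩) = 0

variable {Ψ : F →ₐ[Kbar] LL N} {H : Subgroup SL(2, ℤ)} {n : ℕ} [NeZero n]

theorem smul_real_of_mem (hinv : ∀ γ ∈ H, ∀ f : F, γ • Ψ f = Ψ f) (γ : SL(2, ℤ)) (hγ : γ ∈ H)
    (f : F) : sl γ • real Ψ f = real Ψ f := by
  rw [real_apply, ← embL_smul, hinv γ hγ]

theorem inv_sl_smul_real (hinv : ∀ γ ∈ H, ∀ f : F, γ • Ψ f = Ψ f) (γ : H) (u : F) :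
    (sl (γ : SL(2, ℤ)))⁻¹ • real Ψ u = real Ψ u := by
  rw [← map_inv]
  exact smul_real_of_mem hinv _ (inv_mem γ.2) u

/-- every `n`-th root in `MM` of a nonzero element of `F` has a multiplier system -/
theorem exists_isMult_of_root (hinv : ∀ γ ∈ H, ∀ f : F, γ • Ψ f = Ψ f) (u : F) (hu : u ≠ 0)
    (h : MM) (hh : h ^ n = real Ψ u) :
    ∃ ψ : Additive H →+ ZMod n, ∀ γ : H, (sl (γ : SL(2, ℤ)))⁻¹ • h =
      algebraMap Kbar MM ((zetaK n : Kbar) ^ (ψ (Additive.ofMul γ)).val) * h := by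
  have hh0 : h ≠ 0 := by
    rintro rfl
    rw [zero_pow (NeZero.ne n)] at hh
    exact real_ne_zero Ψ hu hh.symm
  have key : ∀ γ : H, ∃ a : ZMod n, (sl (γ : SL(2, ℤ)))⁻¹ • h =
      algebraMap Kbar MM ((zetaK n : Kbar) ^ a.val) * h := by
    intro γ
    refine exists_zeta_mul_of_pow_eq hh0 ?_
    rw [← smul_pow', hh, inv_sl_smul_real hinv]
  choose c hc using key
  refine ⟨AddMonoidHom.mk' (fun γ => c (Additive.toMul γ)) ?_, fun γ => hc γ⟩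
  intro γ γ'
  refine algebraMap_zeta_mul_cancel hh0 ?_
  have e : Additive.toMul (γ + γ') = Additive.toMul γ * Additive.toMul γ' := rfl
  rw [← hc, e, Subgroup.coe_mul, map_mul, mul_inv_rev, mul_smul, hc, smul_mul',
    smul_algebraMap_Kbar_MM, hc, zeta_pow_val_add, map_mul, mul_assoc]

theorem IsMult.ne_zero {u : F} {ψ : Additive H →+ ZMod n} (h : IsMult Ψ H n u ψ) : u ≠ 0 := by
  obtain ⟨h₀, hh0, hpow, -⟩ := h
  rintro rfl
  rw [map_zero] at hpow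
  exact hh0 (pow_eq_zero_iff (NeZero.ne n) |>.mp hpow)

theorem IsMult.unique {u : F} {ψ ψ' : Additive H →+ ZMod n} (h : IsMult Ψ H n u ψ)
    (h' : IsMult Ψ H n u ψ') : ψ = ψ' := by
  obtain ⟨x, hx0, hxn, hx⟩ := h
  obtain ⟨y, hy0, hyn, hy⟩ := h'
  obtain ⟨a, ha⟩ := exists_zeta_mul_of_pow_eq (n := n) hx0 (hyn.trans hxn.symm)
  refine AddMonoidHom.ext fun γ => ?_
  refine algebraMap_zeta_mul_cancel hy0 ?_
  have h1 := hy (Additive.toMul γ)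
  rw [ofMul_toMul] at h1
  have h2 := hx (Additive.toMul γ)
  rw [ofMul_toMul] at h2
  rw [← h1]
  conv_lhs => rw [ha]
  conv_rhs => rw [ha, smul_mul', smul_algebraMap_Kbar_MM, h2]
  ring

theorem IsMult.mul {u u' : F} {ψ ψ' : Additive H →+ ZMod n} (h : IsMult Ψ H n u ψ)
    (h' : IsMult Ψ H n u' ψ') : IsMult Ψ H n (u * u') (ψ + ψ') := by
  obtain ⟨x, hx0, hxn, hx⟩ := h
  obtain ⟨y, hy0, hyn, hy⟩ := h'
  refine ⟨x * y, mul_ne_zero hx0 hy0, by rw [mul_pow, hxn, hyn, map_mul], fun γ => ?_⟩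
  rw [smul_mul', hx, hy, AddMonoidHom.add_apply, zeta_pow_val_add, map_mul]
  ring

theorem isMult_pow (hinv : ∀ γ ∈ H, ∀ f : F, γ • Ψ f = Ψ f) (v : F) (hv : v ≠ 0) :
    IsMult Ψ H n (v ^ n) 0 := by
  refine ⟨real Ψ v, real_ne_zero Ψ hv, (map_pow _ _ _).symm, fun γ => ?_⟩
  rw [inv_sl_smul_real hinv, AddMonoidHom.zero_apply, zeta_pow_val_zero, map_one, one_mul]

/-- **existence of the multiplier system of a Kummer element** -/
theorem exists_isMult (hinv : ∀ γ ∈ H, ∀ f : F, γ • Ψ f = Ψ f) (u : F) (hu : u ≠ 0)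
    (hdiv : IsKum F n u) : ∃ ψ : Additive H →+ ZMod n, IsMult Ψ H n u ψ := by
  obtain ⟨h, hh⟩ := exists_root_LL Ψ (Nat.pos_of_ne_zero (NeZero.ne n)) hu hdiv
  have h1 : (embL N h) ^ n = real Ψ u := by rw [← map_pow, hh, real_apply]
  obtain ⟨ψ, hψ⟩ := exists_isMult_of_root hinv u hu (embL N h) h1
  refine ⟨ψ, embL N h, ?_, h1, hψ⟩
  intro h0
  rw [h0, zero_pow (NeZero.ne n)] at h1
  exact real_ne_zero Ψ hu h1.symm

/-- the root can be taken in `LL N` -/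
theorem IsMult.exists_LL {u : F} {ψ : Additive H →+ ZMod n} (h : IsMult Ψ H n u ψ)
    (hdiv : IsKum F n u) :
    ∃ h₁ : LL N, h₁ ≠ 0 ∧ h₁ ^ n = Ψ u ∧ ∀ γ : H, (γ : SL(2, ℤ))⁻¹ • h₁ =
      algebraMap Kbar (LL N) ((zetaK n : Kbar) ^ (ψ (Additive.ofMul γ)).val) * h₁ := by
  have hu : u ≠ 0 := h.ne_zero
  obtain ⟨x, hx0, hxn, hx⟩ := h
  have hinj : Function.Injective (embL N) := (embL N).toRingHom.injective
  obtain ⟨h₀, hh₀⟩ := exists_root_LL Ψ (Nat.pos_of_ne_zero (NeZero.ne n)) hu hdiv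
  have h1 : (embL N h₀) ^ n = real Ψ u := by rw [← map_pow, hh₀, real_apply]
  have h00 : embL N h₀ ≠ 0 := by
    intro h0
    rw [h0, zero_pow (NeZero.ne n)] at h1
    exact real_ne_zero Ψ hu h1.symm
  obtain ⟨a, ha⟩ := exists_zeta_mul_of_pow_eq (n := n) h00 (hxn.trans h1.symm)
  set h₁ : LL N := algebraMap Kbar (LL N) ((zetaK n : Kbar) ^ a.val) * h₀ with hh₁
  have he : embL N h₁ = x := by
    rw [hh₁, map_mul, AlgHom.commutes, ← ha]
  refine ⟨h₁, ?_, ?_, fun γ => ?_⟩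
  · intro h0
    rw [h0, map_zero] at he
    exact hx0 he.symm
  · apply hinj
    rw [map_pow, he, hxn, real_apply]
  · apply hinj
    rw [embL_smul, map_inv, he, hx, map_mul, AlgHom.commutes, he]

/-- **injectivity**: a Kummer element with trivial multiplier system is an `n`-th power. -/
theorem IsMult.exists_pow_eq (hfix : ∀ y : LL N, (∀ γ ∈ H, γ • y = y) → ∃ f : F, Ψ f = y)
    {u : F} (h : IsMult Ψ H n u 0) (hdiv : IsKum F n u) : ∃ v : F, u = v ^ n := by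
  obtain ⟨h₁, -, hpow, hγ⟩ := h.exists_LL hdiv
  have hfix' : ∀ γ ∈ H, γ • h₁ = h₁ := by
    intro γ hγ'
    have h2 := hγ ⟨γ⁻¹, inv_mem hγ'⟩
    rw [AddMonoidHom.zero_apply, zeta_pow_val_zero, map_one, one_mul] at h2
    simpa using h2
  obtain ⟨v, hv⟩ := hfix h₁ hfix'
  refine ⟨v, Ψ.toRingHom.injective ?_⟩
  show Ψ u = Ψ (v ^ n)
  rw [map_pow, hv, hpow]

end Fermat.Agent.S48.BB.M
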