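/-
S48, block BB, sub-block M (multiplier map), owner helper144.
Generic version of `GAL/Mult/Hecke.lean`: formal Hecke equivariance of the multiplier system, for
ANY Hecke family `α` for `H → GL(2,ℝ)` (e.g. the family of `T_p` with `σ_p`, or the one element
family `{σ_d}` of a diamond operator).
-/
import Fermat.Agent.GAL.Mult.Hecke
import Fermat.Agent.S48.BB.M.IsMult

set_option autoImplicit false

namespace Fermat.Agent.S48.BB.M

open UpperHalfPlane
open Fermat.Agent.S24 Fermat.Agent.S24.B Fermat.Agent.GAL.Mult Fermat.Agent.Lib.HeckeHom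
open scoped MatrixGroups

/-- The inclusion `H → GL(2,ℝ)`. -/
noncomputable def inclH (H : Subgroup SL(2, ℤ)) : H →* GL (Fin 2) ℝ :=
  (Matrix.SpecialLinearGroup.mapGL ℝ).comp H.subtype

theorem inclH_apply (H : Subgroup SL(2, ℤ)) (γ : H) :
    inclH H γ = Matrix.SpecialLinearGroup.mapGL ℝ (γ : SL(2, ℤ)) := rfl

theorem inclH_injective (H : Subgroup SL(2, ℤ)) : Function.Injective (inclH H) :=
  Matrix.SpecialLinearGroup.mapGL_injective.comp H.subtype_injective

/-- shortcut instance (the generic search times out) -/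
noncomputable local instance instDMAHecke' : DistribMulAction GL(2, ℝ)⁺ MM :=
  instActionMM.toDistribMulAction

/-- shortcut instance (the generic search times out) -/
noncomputable local instance instMAHecke' : MulAction GL(2, ℝ)⁺ MM :=
  instDMAHecke'.toMulAction

/-- shortcut instance (the generic search times out) -/
noncomputable local instance instSAHecke' : SemigroupAction GL(2, ℝ)⁺ MM :=
  instMAHecke'.toSemigroupAction

variable {N : ℕ} [NeZero N] {F : Type*} [Field F] [Algebra Kbar F]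
variable {Ψ : F →ₐ[Kbar] LL N} {H : Subgroup SL(2, ℤ)} {n : ℕ} [NeZero n]

/-- **Hecke equivariance.**  If `u' = ∏ i, u ∘ α i` (as meromorphic functions), then the multiplier
system of `u'` is `heckeHom` of the multiplier system of `u`. -/
theorem IsMult.hecke {ι : Type*} [Fintype ι]
    {α : ι → GL (Fin 2) ℝ} (hα : IsHeckeFamily (inclH H) α) (hdet : ∀ i, 0 < (α i).det.val)
    {u u' : F}
    (huu' : real Ψ u' = ∏ i, (⟨α i, hdet i⟩ : GL(2, ℝ)⁺)⁻¹ • real Ψ u)
    {ψ : Additive H →+ ZMod n} (h : IsMult Ψ H n u ψ) :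
    IsMult Ψ H n u' (hα.heckeHom ψ) := by
  obtain ⟨h₀, h₀ne, h₀pow, h₀γ⟩ := h
  set a : ι → GL(2, ℝ)⁺ := fun i => ⟨α i, hdet i⟩ with ha
  refine ⟨∏ i, (a i)⁻¹ • h₀, ?_, ?_, ?_⟩
  · rw [Finset.prod_ne_zero_iff]
    intro i _
    exact (smul_ne_zero_iff_ne _).mpr h₀ne
  · rw [← Finset.prod_pow, huu']
    refine Finset.prod_congr rfl fun i _ => ?_
    rw [← smul_pow', h₀pow]
  · intro γ
    have hspec : ∀ i, a i * sl (γ : SL(2, ℤ)) =
        sl ((hα.coc γ i : H) : SL(2, ℤ)) * a (hα.perm γ i) := by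
      intro i
      apply Subtype.ext
      have := hα.spec γ i
      simpa [ha, inclH_apply, coe_sl] using this
    have hstep : ∀ i, (sl (γ : SL(2, ℤ)))⁻¹ • (a i)⁻¹ • h₀ =
        algebraMap Kbar MM ((zetaK n : Kbar) ^ (ψ (Additive.ofMul (hα.coc γ i))).val) *
          (a (hα.perm γ i))⁻¹ • h₀ := by
      intro i
      rw [← mul_smul, ← mul_inv_rev, hspec i, mul_inv_rev, mul_smul, h₀γ, smul_mul',
        smul_algebraMap_Kbar_MM]
    rw [Finset.smul_prod']
    simp only [hstep]
    rw [Finset.prod_mul_distrib, ← map_prod, IsHeckeFamily.heckeHom_apply]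
    have hz : (zetaK n : Kbar) ^ n = 1 := by
      have := congrArg Units.val (isPrimitiveRoot_zetaK n).pow_eq_one
      simpa using this
    rw [pow_val_sum_of_pow_eq_one hz]
    congr 1
    exact Equiv.prod_comp (hα.permEquiv γ) (fun i => (a i)⁻¹ • h₀)

end Fermat.Agent.S48.BB.M
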