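/-
S48, block BB, sub-block M (multiplier map), owner helper144.
Interface T / M: from the FORMAL product formula
`(T u)(q^ℓ) = d(q^(ℓ²)) ∏_b u(ζ^b q)`  (`d = D u` the diamond translate of `u`)
to the product formula in the field `MM` of meromorphic functions
`real (T u) = real d ∘ (ℓ 0; 0 1) * ∏_j real u ∘ (1 j; 0 ℓ)`.
Generic version, with a diamond, of `GAL/Mult/HeckeBridge.lean`.
-/
import Fermat.Agent.GAL.Mult.HeckeBridge
import Fermat.Agent.GAL.Mult.NiceFrac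

set_option autoImplicit false

namespace Fermat.Agent.S48.BB.M

open UpperHalfPlane Filter Topology ModularCurve
open Fermat.Agent.S24 Fermat.Agent.S24.B Fermat.Agent.GAL.Mult Fermat.Agent.GAL.Mult.HeckeBridge
open scoped MatrixGroups Real Manifold OnePoint

/-- The meromorphic function `r` is a quotient of two holomorphic functions having `q`-expansions
with coefficients in `ℚ̄`, and `s` is the corresponding quotient of series. -/
def IsNice (r : MM) (s : LaurentSeries Kbar) : Prop :=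
  ∃ (a b : Hol) (sa sb : LaurentSeries Kbar), HasTExp 1 a.1 sa ∧ HasTExp 1 b.1 sb ∧ sb ≠ 0 ∧
    s * sb = sa ∧ r * algebraMap Hol MM b = algebraMap Hol MM a

variable (ℓ : ℕ) [NeZero ℓ]

/-- `(ℓ 0; 0 1)` in `GL(2,ℝ)⁺`. -/
noncomputable def gD : GL(2, ℝ)⁺ :=
  ⟨ModularForm.heckeDiagMatrix ℓ, by simpa using ModularForm.det_heckeDiagMatrix_pos ℓ⟩

/-- `(1 j; 0 ℓ)` in `GL(2,ℝ)⁺`. -/
noncomputable def gU (j : ℕ) : GL(2, ℝ)⁺ :=
  ⟨ModularForm.heckeMatrix ℓ j, by simpa using ModularForm.det_heckeMatrix_pos ℓ j⟩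

/-- The multiplicative Hecke operator (with two arguments) on holomorphic functions. -/
noncomputable def P2 (f g : Hol) : Hol := (gD ℓ)⁻¹ • f * ∏ j : ZMod ℓ, (gU ℓ j.val)⁻¹ • g

/-- The formal multiplicative Hecke operator (with two arguments), in the variable
`t = q^(1/ℓ)`. -/
noncomputable def Q2 (s t : LaurentSeries Kbar) : LaurentSeries Kbar :=
  qExpand Kbar (ℓ * ℓ) s * ∏ b ∈ Finset.range ℓ, twist (zetaK ℓ ^ b) t

theorem Q2_mul (s s' t t' : LaurentSeries Kbar) :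
    Q2 ℓ (s * s') (t * t') = Q2 ℓ s t * Q2 ℓ s' t' := by
  unfold Q2
  simp only [map_mul, Finset.prod_mul_distrib]
  ring

variable {ℓ}

theorem coe_P2 (f g : Hol) :
    (P2 ℓ f g).1 = (fun τ : ℍ => f.1 (ModularForm.heckeDiagMatrix ℓ • τ)) *
      ∏ j : ZMod ℓ, fun τ : ℍ => g.1 (ModularForm.heckeMatrix ℓ j.val • τ) := by
  unfold P2
  have h : ((∏ j : ZMod ℓ, (gU ℓ j.val)⁻¹ • g : Hol) : ℍ → ℂ) =
      ∏ j : ZMod ℓ, (((gU ℓ j.val)⁻¹ • g : Hol) : ℍ → ℂ) :=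
    map_prod Hol.val _ _
  show (((gD ℓ)⁻¹ • f : Hol) : ℍ → ℂ) * ((∏ j : ZMod ℓ, (gU ℓ j.val)⁻¹ • g : Hol) : ℍ → ℂ) = _
  rw [h]
  congr 1

theorem hasTExp_P2 {f g : Hol} {s t : LaurentSeries Kbar} (hf : HasTExp 1 f.1 s)
    (hg : HasTExp 1 g.1 t) : HasTExp ℓ (P2 ℓ f g).1 (Q2 ℓ s t) := by
  rw [coe_P2, Q2, ← prod_zmod_val ℓ (fun b => twist (zetaK ℓ ^ b) t)]
  refine HasTExp.mul ?_ ?_
  · exact hasTExp_diag hf
  · exact hasTExp_prod _ _ _ fun j _ => hasTExp_upper hg j.val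

theorem P2_ne_zero {f g : Hol} (hf : f ≠ 0) (hg : g ≠ 0) : P2 ℓ f g ≠ 0 := by
  unfold P2
  refine mul_ne_zero ((smul_ne_zero_iff_ne _).mpr hf) ?_
  rw [Finset.prod_ne_zero_iff]
  intro x _
  exact (smul_ne_zero_iff_ne _).mpr hg

/-- the product formula in `MM` for fractions. -/
theorem smul_mul_prod_smul_mul {r r' : MM} {a b a' b' : Hol}
    (h : r * algebraMap Hol MM b = algebraMap Hol MM a)
    (h' : r' * algebraMap Hol MM b' = algebraMap Hol MM a') :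
    ((gD ℓ)⁻¹ • r * ∏ j : ZMod ℓ, (gU ℓ j.val)⁻¹ • r') * algebraMap Hol MM (P2 ℓ b b') =
      algebraMap Hol MM (P2 ℓ a a') := by
  unfold P2
  rw [map_mul, map_mul, map_prod, map_prod, ← smul_algebraMap_Hol, ← smul_algebraMap_Hol, ← h,
    smul_mul', mul_mul_mul_comm, ← Finset.prod_mul_distrib]
  congr 1
  refine Finset.prod_congr rfl fun x _ => ?_
  rw [← smul_algebraMap_Hol, ← smul_algebraMap_Hol, ← smul_mul', h']

/-- **The bridge.** -/
theorem IsNice.eq_smul_mul_prod {r rd r' : MM} {s sd s' : LaurentSeries Kbar} (h : IsNice r s)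
    (hd : IsNice rd sd) (h' : IsNice r' s') (hq : qExpand Kbar ℓ s' = Q2 ℓ sd s) :
    r' = (gD ℓ)⁻¹ • rd * ∏ j : ZMod ℓ, (gU ℓ j.val)⁻¹ • r := by
  obtain ⟨a, b, sa, sb, ha, hb, hsb, hu, hr⟩ := h
  obtain ⟨ad, bd, sad, sbd, had, hbd, hsbd, hud, hrd⟩ := hd
  obtain ⟨a', b', sa', sb', ha', hb', hsb', hu', hr'⟩ := h'
  have hb0 : b ≠ 0 := ne_zero_of_hasTExp hb hsb
  have hbd0 : bd ≠ 0 := ne_zero_of_hasTExp hbd hsbd
  have hb0' : b' ≠ 0 := ne_zero_of_hasTExp hb' hsb'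
  have hPb : P2 ℓ bd b ≠ 0 := P2_ne_zero hbd0 hb0
  -- the identity of series
  have hser : qExpand Kbar ℓ sa' * Q2 ℓ sbd sb = qExpand Kbar ℓ sb' * Q2 ℓ sad sa := by
    rw [← hu', ← hu, ← hud, map_mul, Q2_mul, hq]
    ring
  -- the identity of holomorphic functions
  have hfun : a' * P2 ℓ bd b = b' * P2 ℓ ad a := by
    apply Subtype.ext
    have h1 : HasTExp ℓ (a' * P2 ℓ bd b : Hol).1 (qExpand Kbar ℓ sa' * Q2 ℓ sbd sb) :=
      (hasTExp_level ha').mul (hasTExp_P2 hbd hb)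
    have h2 : HasTExp ℓ (b' * P2 ℓ ad a : Hol).1 (qExpand Kbar ℓ sb' * Q2 ℓ sad sa) :=
      (hasTExp_level hb').mul (hasTExp_P2 had ha)
    rw [hser] at h1
    exact HasTExp.funext h1 h2
  have hR := smul_mul_prod_smul_mul (ℓ := ℓ) hrd hr
  have hinj := IsFractionRing.injective Hol MM
  have hne1 : algebraMap Hol MM b' ≠ 0 := by
    rw [Ne, map_eq_zero_iff _ hinj]; exact hb0'
  have hne2 : algebraMap Hol MM (P2 ℓ bd b) ≠ 0 := by
    rw [Ne, map_eq_zero_iff _ hinj]; exact hPb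
  have key : r' * (algebraMap Hol MM b' * algebraMap Hol MM (P2 ℓ bd b)) =
      ((gD ℓ)⁻¹ • rd * ∏ j : ZMod ℓ, (gU ℓ j.val)⁻¹ • r) *
        (algebraMap Hol MM b' * algebraMap Hol MM (P2 ℓ bd b)) := by
    calc r' * (algebraMap Hol MM b' * algebraMap Hol MM (P2 ℓ bd b))
        = algebraMap Hol MM (a' * P2 ℓ bd b) := by rw [← mul_assoc, hr', map_mul]
      _ = algebraMap Hol MM b' * algebraMap Hol MM (P2 ℓ ad a) := by rw [hfun, map_mul]
      _ = _ := by rw [← hR]; ring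
  exact mul_right_cancel₀ (mul_ne_zero hne1 hne2) key

/-- The bridge, in the form indexed by `OnePoint (ZMod ℓ)`: `α ∞ = σ (ℓ 0; 0 1)`,
`α j = (1 j; 0 ℓ)`, and `rd = r ∘ σ`. -/
theorem IsNice.eq_prod_onePoint {r rd r' : MM} {s sd s' : LaurentSeries Kbar} (h : IsNice r s)
    (hd : IsNice rd sd) (h' : IsNice r' s') (hq : qExpand Kbar ℓ s' = Q2 ℓ sd s)
    (σ : SL(2, ℤ)) (hσ : rd = (sl σ)⁻¹ • r) (α : OnePoint (ZMod ℓ) → GL (Fin 2) ℝ)
    (hα : α ∞ = Matrix.SpecialLinearGroup.mapGL ℝ σ * ModularForm.heckeDiagMatrix ℓ)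
    (hα' : ∀ j : ZMod ℓ, α (j : OnePoint (ZMod ℓ)) = ModularForm.heckeMatrix ℓ j.val)
    (hdet : ∀ x, 0 < (α x).det.val) :
    r' = ∏ x : OnePoint (ZMod ℓ), (⟨α x, hdet x⟩ : GL(2, ℝ)⁺)⁻¹ • r := by
  rw [h.eq_smul_mul_prod hd h' hq, prod_onePoint, hσ, smul_smul, ← mul_inv_rev]
  congr 1
  · congr 2
    apply Subtype.ext
    exact hα.symm
  · refine Finset.prod_congr rfl fun j _ => ?_
    congr 2
    apply Subtype.ext
    exact (hα' j).symm

end Fermat.Agent.S48.BB.M
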