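/-
S48, block BB, sub-block M (multiplier map), owner helper144.
Generic version of `GAL/Mult/Kills.lean`: the multiplier system of a Kummer element kills the
elliptic and the parabolic elements of `H`.
-/
import Fermat.Agent.GAL.Mult.Kills
import Fermat.Agent.S48.BB.M.IsMult

set_option autoImplicit false

namespace Fermat.Agent.S48.BB.M

open UpperHalfPlane Filter Topology ModularCurve AlgebraicCurve
open Fermat.Agent.S24 Fermat.Agent.S24.B Fermat.Agent.GAL.Mult
open scoped MatrixGroups Real Manifold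

variable {N : ℕ} [NeZero N] {F : Type*} [Field F] [Algebra Kbar F]
variable {Ψ : F →ₐ[Kbar] LL N} {H : Subgroup SL(2, ℤ)} {n : ℕ} [NeZero n]

/-- the elliptic case -/
theorem IsMult.kills_of_rotation (hinv : ∀ γ ∈ H, ∀ f : F, γ • Ψ f = Ψ f) {u : F}
    {ψ : Additive H →+ ZMod n} (h : IsMult Ψ H n u ψ) (hdiv : IsKum F n u) (σ : SL(2, ℤ))
    (τ₀ : ℍ) (μ : ℂˣ)
    (hσ : ∀ᶠ w in 𝓝 (0 : ℂ),
      σ⁻¹ • ofComplex (discInv τ₀ w) = ofComplex (discInv τ₀ ((μ : ℂ) * w))) : Kills ψ σ := by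
  intro k g hg
  have hu := h.ne_zero
  obtain ⟨h₀, hh0, hpow, hmul⟩ := h
  set η : H := ⟨g⁻¹ * σ ^ k * g, hg⟩ with hη
  set a : ZMod n := ψ (Additive.ofMul η⁻¹) with ha
  have hηg : (sl σ) ^ k * sl g = sl g * sl (η : SL(2, ℤ)) := by
    rw [← map_pow, ← map_mul, ← map_mul]
    congr 1
    show σ ^ k * g = g * (g⁻¹ * σ ^ k * g)
    group
  have hm : sl (η : SL(2, ℤ)) • h₀ = algebraMap Kbar MM ((zetaK n : Kbar) ^ a.val) * h₀ := by
    have := hmul η⁻¹
    rwa [Subgroup.coe_inv, map_inv, inv_inv] at this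
  have hσ' : ∀ᶠ w in 𝓝 (0 : ℂ),
      (sl σ)⁻¹ • ofComplex (discInv τ₀ w) = ofComplex (discInv τ₀ ((μ : ℂ) * w)) := by
    filter_upwards [hσ] with w hw
    rw [← map_inv, sl_smul]
    exact hw
  have key := twist_trivial (K := Kbar) (F := F) (M := MM) (C := ℂ)
    ((MulSemiringAction.toRingHom GL(2, ℝ)⁺ MM (sl g)).comp (real Ψ).toRingHom)
    (wexpM τ₀)
    (fun c hc => by
      show (wexpM τ₀ (sl g • real Ψ (algebraMap Kbar F c))).order = 0
      rw [AlgHom.commutes, smul_algebraMap_Kbar_MM, wexpM_algebraMap_Kbar]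
      exact HahnSeries.order_C)
    (MulSemiringAction.toRingHom GL(2, ℝ)⁺ MM ((sl σ) ^ k)) (μ ^ k)
    (fun x => wexpM_pow_smul τ₀ (sl σ) μ hσ' k x)
    (fun f => by
      show (sl σ) ^ k • sl g • real Ψ f = sl g • real Ψ f
      rw [smul_smul, hηg, mul_smul, smul_real_of_mem hinv _ η.2])
    n (Nat.pos_of_ne_zero (NeZero.ne n)) u hu hdiv (sl g • h₀)
    (by
      show (sl g • h₀) ^ n = sl g • real Ψ u
      rw [← smul_pow', hpow])
    (algebraMap Kbar MM ((zetaK n : Kbar) ^ a.val)) (algebraMap Kbar ℂ ((zetaK n : Kbar) ^ a.val))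
    (wexpM_algebraMap_Kbar τ₀ _)
    (by
      show (sl σ) ^ k • sl g • h₀ = _
      rw [smul_smul, hηg, mul_smul, hm, smul_mul', smul_algebraMap_Kbar_MM])
  have h1 : (zetaK n : Kbar) ^ a.val = 1 := by
    apply (algebraMap Kbar ℂ).injective
    rw [key, map_one]
  have h2 : a = 0 := KillsAux.eq_zero_of_zeta_pow_eq_one h1
  have h3 : ψ (Additive.ofMul η) = -a := by
    rw [ha, ofMul_inv, map_neg, neg_neg]
  rw [h3, h2, neg_zero]

theorem IsMult.kills_S (hinv : ∀ γ ∈ H, ∀ f : F, γ • Ψ f = Ψ f) {u : F}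
    {ψ : Additive H →+ ZMod n} (h : IsMult Ψ H n u ψ) (hdiv : IsKum F n u) :
    Kills ψ ModularGroup.S :=
  h.kills_of_rotation hinv hdiv ModularGroup.S UpperHalfPlane.I (-1) (by
    simpa using S_inv_discInv)

theorem IsMult.kills_ST (hinv : ∀ γ ∈ H, ∀ f : F, γ • Ψ f = Ψ f) {u : F}
    {ψ : Additive H →+ ZMod n} (h : IsMult Ψ H n u ψ) (hdiv : IsKum F n u) :
    Kills ψ (ModularGroup.S * ModularGroup.T) :=
  h.kills_of_rotation hinv hdiv (ModularGroup.S * ModularGroup.T) rho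
    (Units.mk0 (rho : ℂ) rho_ne_zero) ST_inv_discInv

/-- the parabolic case -/
theorem IsMult.kills_T (hinv : ∀ γ ∈ H, ∀ f : F, γ • Ψ f = Ψ f) {u : F}
    {ψ : Additive H →+ ZMod n} (h : IsMult Ψ H n u ψ) (hdiv : IsKum F n u) :
    Kills ψ ModularGroup.T := by
  intro k g hg
  have hu := h.ne_zero
  obtain ⟨h₀, hh0, hpow, hmul⟩ := h.exists_LL hdiv
  set η : H := ⟨g⁻¹ * ModularGroup.T ^ k * g, hg⟩ with hη
  set a : ZMod n := ψ (Additive.ofMul η⁻¹) with ha
  have hηg : ModularGroup.T ^ k * g = g * (η : SL(2, ℤ)) := by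
    show ModularGroup.T ^ k * g = g * (g⁻¹ * ModularGroup.T ^ k * g)
    group
  have hm : (η : SL(2, ℤ)) • h₀ = algebraMap Kbar (LL N) ((zetaK n : Kbar) ^ a.val) * h₀ := by
    have := hmul η⁻¹
    rwa [Subgroup.coe_inv, inv_inv] at this
  have key := twist_trivial (K := Kbar) (F := F) (M := LL N) (C := Kbar)
    ((MulSemiringAction.toRingHom SL(2, ℤ) (LL N) g).comp Ψ.toRingHom)
    (texpLL N).toRingHom
    (fun c hc => by
      show (texpLL N (g • Ψ (algebraMap Kbar F c))).order = 0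
      rw [AlgHom.commutes, smul_algebraMap_Kbar_LL, AlgHom.commutes,
        algebraMap_laurentSeries_eq_single]
      exact HahnSeries.order_single (by simpa using hc) |>.trans rfl)
    (MulSemiringAction.toRingHom SL(2, ℤ) (LL N) (ModularGroup.T ^ k)) ((zetaK N)⁻¹ ^ k)
    (fun x => texpLL_T_pow_smul k x)
    (fun f => by
      show ModularGroup.T ^ k • g • Ψ f = g • Ψ f
      rw [smul_smul, hηg, mul_smul, hinv _ η.2])
    n (Nat.pos_of_ne_zero (NeZero.ne n)) u hu hdiv (g • h₀)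
    (by
      show (g • h₀) ^ n = g • Ψ u
      rw [← smul_pow', hpow])
    (algebraMap Kbar (LL N) ((zetaK n : Kbar) ^ a.val)) ((zetaK n : Kbar) ^ a.val)
    (by
      show texpLL N (algebraMap Kbar (LL N) _) = _
      rw [AlgHom.commutes, algebraMap_laurentSeries_eq_single]
      rfl)
    (by
      show ModularGroup.T ^ k • g • h₀ = _
      rw [smul_smul, hηg, mul_smul, hm, smul_mul', smul_algebraMap_Kbar_LL])
  have h2 : a = 0 := KillsAux.eq_zero_of_zeta_pow_eq_one key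
  have h3 : ψ (Additive.ofMul η) = -a := by
    rw [ha, ofMul_inv, map_neg, neg_neg]
  rw [h3, h2, neg_zero]

end Fermat.Agent.S48.BB.M
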