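/-
S48, block BB, sub-block M (multiplier map), owner helper144.
FINAL DELIVERABLE OF BLOCK M (generic form).

DATA: a field `F` over `ℚ̄`, an embedding `Ψ : F →ₐ[ℚ̄] LL N`, a subgroup `H ≤ SL(2,ℤ)` with
`hinv : ∀ γ ∈ H, ∀ f, γ • Ψ f = Ψ f`.

* `homPE H A`       : homomorphisms `H → A` killing the elements of `H` which are conjugate in
                      `SL(2,ℤ)` to a power of `S`, `S T` or `T`;
* `mult hinv n`     : `W F n →+ (Additive H →+ ZMod n)`, the multiplier map;
* `isMult_mult_cls` : its characterisation;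
* `mult_mem_homPE`, `mult_injective` (needs `hfix`), `mult_mapW` (equivariance for ANY Hecke
  family), `mult_bijective_of_card_le`.
-/
import Fermat.Agent.S48.BB.M.Kills
import Fermat.Agent.S48.BB.M.Hecke

set_option autoImplicit false

namespace Fermat.Agent.S48.BB.M

open UpperHalfPlane ModularCurve AlgebraicCurve
open Fermat.Agent.S24 Fermat.Agent.S24.B Fermat.Agent.GAL.Mult Fermat.Agent.Lib.HeckeHom
open scoped MatrixGroups

/-- Homomorphisms `H → A` killing the parabolic and the elliptic elements. -/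
def homPE (H : Subgroup SL(2, ℤ)) (A : Type*) [AddCommGroup A] : AddSubgroup (Additive H →+ A) where
  carrier := {ψ | Kills ψ ModularGroup.S ∧ Kills ψ (ModularGroup.S * ModularGroup.T) ∧
    Kills ψ ModularGroup.T}
  zero_mem' := ⟨fun _ _ _ => rfl, fun _ _ _ => rfl, fun _ _ _ => rfl⟩
  add_mem' := by
    rintro a b ⟨ha1, ha2, ha3⟩ ⟨hb1, hb2, hb3⟩
    refine ⟨fun k g hg => ?_, fun k g hg => ?_, fun k g hg => ?_⟩
    · rw [AddMonoidHom.add_apply, ha1 k g hg, hb1 k g hg, add_zero]
    · rw [AddMonoidHom.add_apply, ha2 k g hg, hb2 k g hg, add_zero]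
    · rw [AddMonoidHom.add_apply, ha3 k g hg, hb3 k g hg, add_zero]
  neg_mem' := by
    rintro a ⟨ha1, ha2, ha3⟩
    refine ⟨fun k g hg => ?_, fun k g hg => ?_, fun k g hg => ?_⟩
    · rw [AddMonoidHom.neg_apply, ha1 k g hg, neg_zero]
    · rw [AddMonoidHom.neg_apply, ha2 k g hg, neg_zero]
    · rw [AddMonoidHom.neg_apply, ha3 k g hg, neg_zero]

theorem mem_homPE {H : Subgroup SL(2, ℤ)} {A : Type*} [AddCommGroup A] {ψ : Additive H →+ A} :
    ψ ∈ homPE H A ↔ Kills ψ ModularGroup.S ∧ Kills ψ (ModularGroup.S * ModularGroup.T) ∧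
      Kills ψ ModularGroup.T := Iff.rfl

theorem mem_homPE' {H : Subgroup SL(2, ℤ)} {A : Type*} [AddCommGroup A] {ψ : Additive H →+ A} :
    ψ ∈ homPE H A ↔ ∀ σ ∈ ({ModularGroup.S, ModularGroup.S * ModularGroup.T, ModularGroup.T} :
      Set SL(2, ℤ)), ∀ (k : ℕ) (g : SL(2, ℤ)) (h : g⁻¹ * σ ^ k * g ∈ H),
        ψ (Additive.ofMul ⟨_, h⟩) = 0 := by
  rw [mem_homPE]
  constructor
  · rintro ⟨h1, h2, h3⟩ σ (rfl | rfl | rfl) k g hg
    · exact h1 k g hg
    · exact h2 k g hg
    · exact h3 k g hg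
  · intro h
    exact ⟨h _ (by simp), h _ (by simp), h _ (by simp)⟩

variable {N : ℕ} [NeZero N] {F : Type*} [Field F] [Algebra Kbar F]
variable {Ψ : F →ₐ[Kbar] LL N} {H : Subgroup SL(2, ℤ)}
variable (hinv : ∀ γ ∈ H, ∀ f : F, γ • Ψ f = Ψ f) (n : ℕ) [NeZero n]

/-- the multiplier system of a Kummer unit (by choice). -/
noncomputable def multU (u : kum F n) : Additive H →+ ZMod n :=
  (exists_isMult hinv ((u : Fˣ) : F) (u : Fˣ).ne_zero u.2).choose

theorem isMult_multU (u : kum F n) : IsMult Ψ H n ((u : Fˣ) : F) (multU hinv n u) :=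
  (exists_isMult hinv ((u : Fˣ) : F) (u : Fˣ).ne_zero u.2).choose_spec

theorem multU_mul (u v : kum F n) :
    multU hinv n (u * v) = multU hinv n u + multU hinv n v := by
  refine (isMult_multU hinv n (u * v)).unique ?_
  have h := (isMult_multU hinv n u).mul (isMult_multU hinv n v)
  simpa using h

theorem multU_of_mem_pows (u : kum F n) (hu : (u : Fˣ) ∈ pows F n) :
    multU hinv n u = 0 := by
  obtain ⟨w, hw⟩ := hu
  refine (isMult_multU hinv n u).unique ?_
  have h := isMult_pow (n := n) hinv (w : F) w.ne_zero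
  have h2 : ((u : Fˣ) : F) = (w : F) ^ n := by
    rw [← hw]
    simp
  rw [h2]
  exact h

theorem multU_one : multU hinv n (1 : kum F n) = 0 :=
  multU_of_mem_pows hinv n 1 (pows F n).one_mem

/-- `multU` as a monoid homomorphism. -/
noncomputable def multUHom : kum F n →* Multiplicative (Additive H →+ ZMod n) where
  toFun u := Multiplicative.ofAdd (multU hinv n u)
  map_one' := by rw [multU_one]; rfl
  map_mul' u v := by rw [multU_mul]; rfl

/-- **The multiplier map on the Kummer module.** -/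
noncomputable def mult : W F n →+ (Additive H →+ ZMod n) :=
  MonoidHom.toAdditiveLeft (QuotientGroup.lift _ (multUHom hinv n) (by
    intro u hu
    rw [Subgroup.mem_subgroupOf] at hu
    show Multiplicative.ofAdd (multU hinv n u) = 1
    rw [multU_of_mem_pows hinv n u hu]
    rfl))

theorem mult_cls (u : kum F n) : mult hinv n (cls u) = multU hinv n u := rfl

/-- characterisation of `mult` -/
theorem isMult_mult_cls (u : kum F n) : IsMult Ψ H n ((u : Fˣ) : F) (mult hinv n (cls u)) := by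
  rw [mult_cls]
  exact isMult_multU hinv n u

theorem mult_cls_eq {u : kum F n} {ψ : Additive H →+ ZMod n}
    (h : IsMult Ψ H n ((u : Fˣ) : F) ψ) : mult hinv n (cls u) = ψ :=
  (isMult_mult_cls hinv n u).unique h

/-- `mult` takes values in `homPE`. -/
theorem mult_mem_homPE (w : W F n) : mult hinv n w ∈ homPE H (ZMod n) := by
  obtain ⟨u, rfl⟩ := cls_surjective w
  have h := isMult_mult_cls hinv n u
  exact ⟨h.kills_S hinv u.2, h.kills_ST hinv u.2, h.kills_T hinv u.2⟩

/-- `mult` is injective as soon as `Ψ(F)` is the fixed field of `H`. -/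
theorem mult_injective (hfix : ∀ y : LL N, (∀ γ ∈ H, γ • y = y) → ∃ f : F, Ψ f = y) :
    Function.Injective (mult hinv n) := by
  rw [injective_iff_map_eq_zero]
  intro w hw
  obtain ⟨u, rfl⟩ := cls_surjective w
  have h := isMult_mult_cls hinv n u
  rw [hw] at h
  obtain ⟨v, hv⟩ := h.exists_pow_eq hfix u.2
  rw [cls_eq_zero_iff]
  exact mem_pows_of_eq_pow hv

/-- **Equivariance for an arbitrary Hecke family** `α` and an arbitrary multiplicative operator
`T` on units with `real (T u) = ∏ i, real u ∘ α i`. -/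
theorem mult_mapW {ι : Type*} [Fintype ι] {α : ι → GL (Fin 2) ℝ}
    (hα : IsHeckeFamily (inclH H) α) (hdet : ∀ i, 0 < (α i).det.val)
    (T : Fˣ →* Fˣ) (hT : ∀ u ∈ kum F n, T u ∈ kum F n)
    (hreal : ∀ u ∈ kum F n, real Ψ ((T u : Fˣ) : F) =
      ∏ i, (⟨α i, hdet i⟩ : GL(2, ℝ)⁺)⁻¹ • real Ψ ((u : Fˣ) : F))
    (w : W F n) : mult hinv n (mapW T hT w) = hα.heckeHom (mult hinv n w) := by
  obtain ⟨u, rfl⟩ := cls_surjective w
  rw [mapW_cls]
  exact mult_cls_eq hinv n ((isMult_mult_cls hinv n u).hecke hα hdet (hreal u u.2))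

/-- `mult` corestricted to `homPE`. -/
noncomputable def multPE : W F n →+ homPE H (ZMod n) :=
  (mult hinv n).codRestrict (homPE H (ZMod n)) (mult_mem_homPE hinv n)

theorem coe_multPE (w : W F n) : ((multPE hinv n w : homPE H (ZMod n)) : Additive H →+ ZMod n) =
    mult hinv n w := rfl

/-- `mult : W F n → homPE H (ℤ/n)` is bijective as soon as `#homPE ≤ #W` (block NV). -/
theorem multPE_bijective (hfix : ∀ y : LL N, (∀ γ ∈ H, γ • y = y) → ∃ f : F, Ψ f = y)
    [Finite (homPE H (ZMod n))]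
    (hcard : Nat.card (homPE H (ZMod n)) ≤ Nat.card (W F n)) :
    Function.Bijective (multPE hinv n) := by
  have hinj : Function.Injective (multPE hinv n) := fun a b hab =>
    mult_injective hinv n hfix (congrArg Subtype.val hab)
  exact hinj.bijective_of_nat_card_le hcard

end Fermat.Agent.S48.BB.M
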