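/-
S48, block BB, sub-block M (multiplier map), owner helper144.
INSTANTIATION of the generic block M at `(FB F₀, U.Psi hL, H)` for `hL : IsLvl F₀ H N`.

* `multL hL n : W (FB F₀) n →+ (Additive H →+ ZMod n)`, `multL_injective`, `multL_mem_homPE`,
  `multLPE`, `multLPE_bijective`;
* `multL_mapW`        : equivariance for an arbitrary Hecke family (analytic hypothesis);
* `isNice_real`       : elements of `FB F₀` are nice fractions (`T ∈ H`);
* `multL_mapW_hecke`  : equivariance for `T_p` from the FORMAL product formula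
                        `(T u)(q^p) = (D u)(q^(p²)) ∏_b u(ζ^b q)`, `Psi (D u) = σ⁻¹ • Psi u`;
* `multL_mapW_diamond`: equivariance for the diamond operator `Psi (D u) = σ⁻¹ • Psi u`.
-/
import Fermat.Agent.S48.BB.M.Main
import Fermat.Agent.S48.BB.M.Bridge
import Fermat.Agent.S48.BB.U.Basic

set_option autoImplicit false

namespace Fermat.Agent.S48.BB.M

open UpperHalfPlane ModularCurve AlgebraicCurve
open Fermat.Agent.S24 Fermat.Agent.S24.B Fermat.Agent.GAL.Mult Fermat.Agent.Lib.HeckeHom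
open Fermat.Agent.GAL.Mult.NiceFrac
open scoped MatrixGroups OnePoint

variable {F₀ : IntermediateField ℚ (LaurentSeries ℚ)} {H : Subgroup SL(2, ℤ)} {N : ℕ} [NeZero N]

theorem real_Psi_eq (hL : IsLvl F₀ H N) : real (U.Psi hL) = U.real hL := rfl

section Mult

variable (hL : IsLvl F₀ H N) (n : ℕ) [NeZero n]

/-- **The multiplier map** of `FB F₀`. -/
noncomputable def multL : W (FB F₀) n →+ (Additive H →+ ZMod n) :=
  mult (Ψ := U.Psi hL) (H := H) (fun γ hγ f => U.smul_Psi_of_mem hL γ hγ f) n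

theorem isMult_multL_cls (u : kum (FB F₀) n) :
    IsMult (U.Psi hL) H n ((u : (FB F₀)ˣ) : FB F₀) (multL hL n (cls u)) :=
  isMult_mult_cls _ n u

theorem multL_mem_homPE (w : W (FB F₀) n) : multL hL n w ∈ homPE H (ZMod n) :=
  mult_mem_homPE _ n w

theorem multL_injective : Function.Injective (multL hL n) :=
  mult_injective _ n (U.exists_Psi_eq_of_fixed hL)

/-- `multL` corestricted to `homPE`. -/
noncomputable def multLPE : W (FB F₀) n →+ homPE H (ZMod n) :=
  (multL hL n).codRestrict (homPE H (ZMod n)) (multL_mem_homPE hL n)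

theorem coe_multLPE (w : W (FB F₀) n) :
    ((multLPE hL n w : homPE H (ZMod n)) : Additive H →+ ZMod n) = multL hL n w := rfl

theorem multLPE_injective : Function.Injective (multLPE hL n) := fun _ _ hab =>
  multL_injective hL n (congrArg Subtype.val hab)

theorem multLPE_bijective [Finite (homPE H (ZMod n))]
    (hcard : Nat.card (homPE H (ZMod n)) ≤ Nat.card (W (FB F₀) n)) :
    Function.Bijective (multLPE hL n) :=
  (multLPE_injective hL n).bijective_of_nat_card_le hcard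

/-- Equivariance for an arbitrary Hecke family (analytic form of the hypothesis). -/
theorem multL_mapW {ι : Type*} [Fintype ι] {α : ι → GL (Fin 2) ℝ}
    (hα : IsHeckeFamily (inclH H) α) (hdet : ∀ i, 0 < (α i).det.val)
    (T : (FB F₀)ˣ →* (FB F₀)ˣ) (hT : ∀ u ∈ kum (FB F₀) n, T u ∈ kum (FB F₀) n)
    (hreal : ∀ u ∈ kum (FB F₀) n, U.real hL ((T u : (FB F₀)ˣ) : FB F₀) =
      ∏ i, (⟨α i, hdet i⟩ : GL(2, ℝ)⁺)⁻¹ • U.real hL ((u : (FB F₀)ˣ) : FB F₀))
    (w : W (FB F₀) n) : multL hL n (mapW T hT w) = hα.heckeHom (multL hL n w) :=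
  mult_mapW _ n hα hdet T hT hreal w

end Mult

section Nice

instance instSMulDistribClassSub : SMulDistribClass H (AB N) (LL N) :=
  ⟨fun g a l => smul_distrib_smul (g : SL(2, ℤ)) a l⟩

/-- an `H`-invariant element of `LL N` is a quotient of `H`-invariant elements of `AB N`. -/
theorem exists_fraction_AB (hT : ModularGroup.T ∈ H) (y : LL N) (hy : ∀ γ ∈ H, γ • y = y) :
    ∃ a b : AB N, b ≠ 0 ∧ ModularGroup.T • a = a ∧ ModularGroup.T • b = b ∧
      y * algebraMap (AB N) (LL N) b = algebraMap (AB N) (LL N) a := by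
  obtain ⟨a, b, hb, ha', hb', h⟩ := exists_invariant_fraction (G := H) (A := AB N)
    (L := LL N) (fun a => (finite_orbit_AB a).subset (by
      rintro _ ⟨γ, rfl⟩
      exact ⟨(γ : SL(2, ℤ)), rfl⟩)) y (fun γ => hy (γ : SL(2, ℤ)) γ.2)
  refine ⟨a, b, hb, ha' ⟨_, hT⟩, hb' ⟨_, hT⟩, ?_⟩
  have hbL : algebraMap (AB N) (LL N) b ≠ 0 := fun h0 =>
    hb (IsFractionRing.injective (AB N) (LL N) (by rw [h0, map_zero]))
  rw [h, div_mul_cancel₀ _ hbL]

theorem apply_T_inv_smul_AB {a : AB N} (ha : ModularGroup.T • a = a) (τ : ℍ) :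
    a.1 (ModularGroup.T⁻¹ • τ) = a.1 τ :=
  congrFun (congrArg Subtype.val ha) τ

/-- An `H`-invariant element `y` of `LL N` (`T ∈ H`) with `t`-expansion `s(t ^ N)` is nice. -/
theorem isNice_embL (hT : ModularGroup.T ∈ H) (y : LL N) (hy : ∀ γ ∈ H, γ • y = y)
    (s : LaurentSeries Kbar) (hs : texpLL N y = qExpand Kbar N s) : IsNice (embL N y) s := by
  obtain ⟨a, b, hb, haT, hbT, h⟩ := exists_fraction_AB hT y hy
  obtain ⟨sa, hsa, hsa'⟩ := exists_hasTExp_one (apply_T_inv_smul_AB haT) (hasTExp_texpB a)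
  obtain ⟨sb, hsb, hsb'⟩ := exists_hasTExp_one (apply_T_inv_smul_AB hbT) (hasTExp_texpB b)
  refine ⟨abToHol N a, abToHol N b, sa, sb, hsa', hsb', ?_, ?_, ?_⟩
  · rintro rfl
    apply hb
    apply texpB_injective
    rw [← hsb, map_zero, map_zero]
  · apply qExpand_injective (R := Kbar) N
    have h1 := congrArg (texpLL N) h
    rw [map_mul, hs, texpLL_algebraMap, texpLL_algebraMap, ← hsa, ← hsb] at h1
    rw [map_mul]
    exact h1
  · have h1 := congrArg (embL N) h
    rw [map_mul, embL_algebraMap, embL_algebraMap] at h1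
    exact h1

theorem isNice_real (hL : IsLvl F₀ H N) (hT : ModularGroup.T ∈ H) (u : FB F₀) :
    IsNice (U.real hL u) (u : LaurentSeries Kbar) :=
  isNice_embL hT (U.Psi hL u) (fun γ hγ => U.smul_Psi_of_mem hL γ hγ u) _ (U.texpLL_Psi hL u)

end Nice

section Hecke

variable (hL : IsLvl F₀ H N) (n : ℕ) [NeZero n]

theorem real_eq_inv_sl_smul {σ : SL(2, ℤ)} {u d : FB F₀}
    (hd : U.Psi hL d = σ⁻¹ • U.Psi hL u) : U.real hL d = (sl σ)⁻¹ • U.real hL u := by
  rw [U.real_apply, U.real_apply, hd, embL_smul, map_inv]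

/-- **Analytic product formula from the formal one.** -/
theorem real_eq_prod_of_formal (hT : ModularGroup.T ∈ H) {p : ℕ} [NeZero p] {σ : SL(2, ℤ)}
    {u d u' : FB F₀} (hd : U.Psi hL d = σ⁻¹ • U.Psi hL u)
    (hq : qExpand Kbar p (u' : LaurentSeries Kbar) =
      qExpand Kbar (p * p) (d : LaurentSeries Kbar) *
        ∏ b ∈ Finset.range p, twist (zetaK p ^ b) (u : LaurentSeries Kbar))
    (α : OnePoint (ZMod p) → GL (Fin 2) ℝ)
    (hα : α ∞ = Matrix.SpecialLinearGroup.mapGL ℝ σ * ModularForm.heckeDiagMatrix p)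
    (hα' : ∀ j : ZMod p, α (j : OnePoint (ZMod p)) = ModularForm.heckeMatrix p j.val)
    (hdet : ∀ x, 0 < (α x).det.val) :
    U.real hL u' = ∏ x : OnePoint (ZMod p), (⟨α x, hdet x⟩ : GL(2, ℝ)⁺)⁻¹ • U.real hL u :=
  (isNice_real hL hT u).eq_prod_onePoint (isNice_real hL hT d) (isNice_real hL hT u') hq σ
    (real_eq_inv_sl_smul hL hd) α hα hα' hdet

/-- **Equivariance of the multiplier map for `T_p`**, from the formal product formula. -/
theorem multL_mapW_hecke (hT : ModularGroup.T ∈ H) {p : ℕ} [NeZero p] {σ : SL(2, ℤ)}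
    {α : OnePoint (ZMod p) → GL (Fin 2) ℝ} (hfam : IsHeckeFamily (inclH H) α)
    (hα : α ∞ = Matrix.SpecialLinearGroup.mapGL ℝ σ * ModularForm.heckeDiagMatrix p)
    (hα' : ∀ j : ZMod p, α (j : OnePoint (ZMod p)) = ModularForm.heckeMatrix p j.val)
    (hdet : ∀ x, 0 < (α x).det.val)
    (T : (FB F₀)ˣ →* (FB F₀)ˣ) (hTk : ∀ u ∈ kum (FB F₀) n, T u ∈ kum (FB F₀) n)
    (D : FB F₀ → FB F₀) (hD : ∀ u, U.Psi hL (D u) = σ⁻¹ • U.Psi hL u)
    (hq : ∀ u : (FB F₀)ˣ, qExpand Kbar p (((T u : (FB F₀)ˣ) : FB F₀) : LaurentSeries Kbar) =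
      qExpand Kbar (p * p) (D (u : FB F₀) : LaurentSeries Kbar) *
        ∏ b ∈ Finset.range p, twist (zetaK p ^ b) ((u : FB F₀) : LaurentSeries Kbar))
    (w : W (FB F₀) n) : multL hL n (mapW T hTk w) = hfam.heckeHom (multL hL n w) :=
  multL_mapW hL n hfam hdet T hTk
    (fun u _ => real_eq_prod_of_formal hL hT (hD _) (hq u) α hα hα' hdet) w

/-- **Equivariance of the multiplier map for a diamond operator.** -/
theorem multL_mapW_diamond {σ : SL(2, ℤ)} {α : Unit → GL (Fin 2) ℝ}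
    (hfam : IsHeckeFamily (inclH H) α)
    (hα : ∀ x, α x = Matrix.SpecialLinearGroup.mapGL ℝ σ)
    (D : (FB F₀)ˣ →* (FB F₀)ˣ) (hDk : ∀ u ∈ kum (FB F₀) n, D u ∈ kum (FB F₀) n)
    (hD : ∀ u : (FB F₀)ˣ, U.Psi hL ((D u : (FB F₀)ˣ) : FB F₀) = σ⁻¹ • U.Psi hL (u : FB F₀))
    (w : W (FB F₀) n) : multL hL n (mapW D hDk w) = hfam.heckeHom (multL hL n w) := by
  have hdet : ∀ x, 0 < (α x).det.val := fun x => by rw [hα x]; simp
  refine multL_mapW hL n hfam hdet D hDk (fun u _ => ?_) w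
  rw [real_eq_inv_sl_smul hL (hD u), Fintype.prod_unique]
  congr 2
  apply Subtype.ext
  exact (hα _).symm

end Hecke

end Fermat.Agent.S48.BB.M
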